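/-
S43 (route TWX), block FLATB, abstract core.  SORRY-FREE.

`flatAt_of_ann`: let `c` be a smooth cocycle with values in `ad r` (`r` smooth, `k` finite) and let `X` be a finite
`G_ℚ`-module with a Hopf order of functions at `p` (`S19.IsFunFlat p X`, e.g. `X = KV Kbar (FN M) (p ^ K)`, `p ∤ M`).
If every `a ∈ ℤ[G_ℚ]` which kills `X` kills the infinitesimal lift `(1 + ε c) r` (i.e. `∑ a_g (1 + ε c g) r g = 0` in
`M₂(k[ε])`), then `c` is FLAT at `p` in the sense of S56 (`S56.C.FlatAt r c p`), the shape consumed by `S43.GWS.tw_strict'`.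
-/
import Fermat.Agent.S56.C.LocalBasic
import Fermat.Agent.S56.B.Level
import Fermat.Agent.S32.Ann
import Fermat.Agent.S32.Bridge
import Fermat.Agent.S19.A.FunFlat

set_option autoImplicit false

open IsLocalRing Matrix

noncomputable section

namespace Fermat.Agent.S43.FlatB

open Fermat.Agent.S53 (G M2 HasMatrix IsMatRep)
open Fermat.Agent.S56.C (ad rm IsCoc IsCob liftMat Smooth FlatAt)
open Fermat.Agent.S19 (IsFunFlat)
open Fermat.Agent.S32 (combAct LevelMod)

variable {k : Type} [Field k]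

/-- `(1 + ε c) r` is a continuous matrix representation. -/
theorem isMatRep_liftMat (r : G →* GL (Fin 2) k) (c : G → M2 k) (hc : IsCoc r c) (hs : Smooth c)
    (hr : Fermat.Agent.S56.B.RSmooth r) : IsMatRep (liftMat r c) := by
  refine ⟨Fermat.Agent.S56.C.liftMat_one r hc, (Fermat.Agent.S56.C.liftMat_mul_iff r c).2 hc, fun n => ?_⟩
  obtain ⟨L₁, hL₁, h₁⟩ := hs
  obtain ⟨L₂, hL₂, h₂⟩ := hr
  refine ⟨L₁ ⊔ L₂, IntermediateField.finiteDimensional_sup L₁ L₂, fun σ hσ i j => ?_⟩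
  have e1 : c σ = 0 := h₁ σ fun x hx => hσ x ((le_sup_left : L₁ ≤ L₁ ⊔ L₂) hx)
  have e2 : r σ = 1 := h₂ σ fun x hx => hσ x ((le_sup_right : L₂ ≤ L₁ ⊔ L₂) hx)
  have e3 : liftMat r c σ = 1 := by
    rw [Fermat.Agent.S56.C.liftMat_eq_dn, e1, Matrix.zero_mul, rm, e2, Units.val_one,
      Fermat.Agent.S56.C.dn_one]
  rw [e3, sub_self]
  exact Ideal.zero_mem _

/-- the action of `a ∈ ℤ[G_ℚ]` on `V / I V`. -/
theorem combAct_levelMod_mk {A : Type} [CommRing A] [IsLocalRing A] (ρ : GaloisRepAdic A) (I : Ideal A)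
    (a : G →₀ ℤ) (v : ρ.V) :
    combAct a (LevelMod.mk ρ I v) = LevelMod.mk ρ I ((a.sum fun g n => n • ρ.ρ g) v) := by
  unfold combAct
  rw [Finsupp.sum, Finsupp.sum, LinearMap.sum_apply, map_sum]
  refine Finset.sum_congr rfl fun g _ => ?_
  rw [LevelMod.smul_mk, LinearMap.smul_apply, map_zsmul]

theorem finite_residueField_dualNumber [Finite k] : Finite (ResidueField (DualNumber k)) :=
  haveI : Finite (DualNumber k) := inferInstanceAs (Finite (k × k))
  Finite.of_surjective _ (IsLocalRing.residue_surjective (R := DualNumber k))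

/-- **FLATB, abstract core.** -/
theorem flatAt_of_ann [Finite k] (p : ℕ) [Fact p.Prime] (r : G →* GL (Fin 2) k) (c : G → M2 k)
    (hc : IsCoc r c) (hs : Smooth c) (hr : Fermat.Agent.S56.B.RSmooth r)
    {X : Type} [AddCommGroup X] [Finite X] [DistribMulAction G X] (hX : IsFunFlat p X)
    (h : ∀ a : G →₀ ℤ, (∀ x : X, combAct a x = 0) → (a.sum fun g n => n • liftMat r c g) = 0) :
    FlatAt r c p := by
  obtain ⟨ρ, hρ⟩ := (isMatRep_liftMat r c hc hs hr).exists_hasMatrix
  refine ⟨ρ, hρ, ?_⟩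
  obtain ⟨b, hb⟩ := hρ
  rw [Fermat.Agent.S32.isFlatAt_iff]
  refine ⟨finite_residueField_dualNumber, fun I hI => ?_⟩
  have : Finite (LevelMod ρ I) := Fermat.Agent.S32.finite_levelMod ρ I
  refine IsFunFlat.isFlatMod (Fermat.Agent.S32.isFunFlat_of_ann hX fun a ha y => ?_)
  obtain ⟨v, rfl⟩ := LevelMod.mk_surjective ρ I y
  have h0 : (a.sum fun g n => n • ρ.ρ g) = 0 := by
    apply (LinearMap.toMatrix b b).injective
    rw [map_zero, ← h a ha, Finsupp.sum, Finsupp.sum, map_sum]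
    refine Finset.sum_congr rfl fun g _ => ?_
    rw [map_zsmul, hb g]
  rw [combAct_levelMod_mk, h0, LinearMap.zero_apply, map_zero]

end Fermat.Agent.S43.FlatB
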