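/-
S43 (route TWX), block FLATB, part 2: the local conditions of the infinitesimal lifts cut out of `R : G_ℚ → M₂(A)`.
SORRY-FREE.

`R : G → M₂(A)` multiplicative, `φ : A → k[ε]` a ring hom, `c` the cocycle with `φ ∘ R = (1 + ε c) r`
(the shape of the hypothesis `hcov` of `S43.Tan.tan_core`).  Then every condition required by `S43.GWS.tw_strict'`
(cocycle, smooth, trace zero, unramified, unipotent, strict, FLAT) follows from the corresponding property of `R`
(resp. of the module `W = L²` on which `R` acts faithfully).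
`hcov_of` : the glue `GWS.tw_strict'` ⟹ hypothesis `hcov` of `Tan.tan_core`.
-/
import Fermat.Agent.S43.FlatB.Abs
import Fermat.Agent.S43.Exact.Mat

set_option autoImplicit false

open IsLocalRing Matrix

noncomputable section

namespace Fermat.Agent.S43.FlatB

open Fermat.Agent.S53 (G M2 HasMatrix IsMatRep)
open Fermat.Agent.S56.C (ad rm IsCoc IsCob liftMat Smooth FlatAt TraceZero UnramAt UnipAt dn)
open Fermat.Agent.S19 (IsFunFlat)
open Fermat.Agent.S32 (combAct LevelMod)
open Fermat.Agent.S43.Exact (matAct)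

variable {k : Type} [Field k] {A : Type} [CommRing A]
  {r : G →* GL (Fin 2) k} {R : G → M2 A} {φ : A →+* DualNumber k} {c : G → M2 k}

theorem isCoc_of_map (hmul : ∀ g h, R (g * h) = R g * R h)
    (hφ : ∀ σ, (R σ).map φ = liftMat r c σ) : IsCoc r c := by
  rw [← Fermat.Agent.S56.C.liftMat_mul_iff]
  intro g h
  rw [← hφ, ← hφ, ← hφ, hmul, Matrix.map_mul]

theorem eq_zero_of_map_one (hφ : ∀ σ, (R σ).map φ = liftMat r c σ) {σ : G} (h : R σ = 1) : c σ = 0 := by
  refine Fermat.Agent.S56.C.eq_zero_of_liftMat_eq_one r ?_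
  rw [← hφ, h, Matrix.map_one _ (map_zero φ) (map_one φ)]

theorem smooth_of_map (hφ : ∀ σ, (R σ).map φ = liftMat r c σ)
    (hR : ∃ L : IntermediateField ℚ (AlgebraicClosure ℚ), FiniteDimensional ℚ L ∧
      ∀ σ : G, (∀ x ∈ L, σ x = x) → R σ = 1) : Smooth c := by
  obtain ⟨L, hL, h⟩ := hR
  exact ⟨L, hL, fun σ hσ => eq_zero_of_map_one hφ (h σ hσ)⟩

theorem unramAt_of_map (hφ : ∀ σ, (R σ).map φ = liftMat r c σ) (q : ℕ)
    (h : ∀ P : ValuationSubring (AlgebraicClosure ℚ), P.LiesOverPrime q →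
      ∀ σ ∈ P.inertiaSubgroupIn ℚ, R σ = 1) : UnramAt c q :=
  fun P hP σ hσ => eq_zero_of_map_one hφ (h P hP σ hσ)

/-- `det R σ` is a constant. -/
theorem traceZero_of_map (hφ : ∀ σ, (R σ).map φ = liftMat r c σ)
    (hdet : ∀ σ, (φ (R σ).det).snd = 0) : TraceZero c := by
  intro σ
  have h1 : φ (R σ).det = ((R σ).map φ).det := by
    rw [RingHom.map_det]
    rfl
  have h2 := hdet σ
  rw [h1, hφ, Fermat.Agent.S56.C.liftMat_eq_dn, Fermat.Agent.S56.C.dn_det_mul] at h2
  simp only [TrivSqZeroExt.snd_add, TrivSqZeroExt.snd_inl, TrivSqZeroExt.snd_inr, zero_add] at h2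
  have h3 : (rm r σ).det ≠ 0 := by
    have : IsUnit (rm r σ).det := (Matrix.isUnit_iff_isUnit_det _).mp (r σ).isUnit
    exact this.ne_zero
  exact (mul_eq_zero.mp h2).resolve_left h3

theorem trace_eq_zero_of_map (hφ : ∀ σ, (R σ).map φ = liftMat r c σ) {σ : G}
    (h : (φ (R σ).trace).snd = 0) : (c σ * rm r σ).trace = 0 := by
  have h1 : φ (R σ).trace = ((R σ).map φ).trace := by
    rw [Matrix.trace_fin_two, Matrix.trace_fin_two, map_add]
    rfl
  rw [h1, hφ, Fermat.Agent.S56.C.liftMat_eq_dn, Fermat.Agent.S56.C.dn_trace] at h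
  simpa using h

theorem unipAt_of_map (hφ : ∀ σ, (R σ).map φ = liftMat r c σ) (q : ℕ)
    (h : ∀ P : ValuationSubring (AlgebraicClosure ℚ), P.LiesOverPrime q →
      ∀ σ ∈ P.inertiaSubgroupIn ℚ, (R σ).trace = 2) : UnipAt r c q := by
  intro P hP σ hσ
  refine trace_eq_zero_of_map hφ ?_
  rw [h P hP σ hσ, map_ofNat]
  rfl

/-- `c σ = 0` as soon as the entries of `φ (R σ)` are constants. -/
theorem eq_zero_of_map_const (hφ : ∀ σ, (R σ).map φ = liftMat r c σ) {σ : G}
    (h : ∀ i j, (φ (R σ i j)).snd = 0) : c σ = 0 := by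
  refine Fermat.Agent.S56.C.mul_rm_cancel r σ ?_
  rw [Matrix.zero_mul, ← Fermat.Agent.S56.C.dn_map_snd (rm r σ) (c σ * rm r σ),
    ← Fermat.Agent.S56.C.liftMat_eq_dn, ← hφ]
  ext i j
  exact h i j

/-- the `ℤ[G]`-annihilator of `W = L²` kills `R`. -/
theorem sum_R_eq_zero {L : Type*} [AddCommGroup L] [Module A L]
    (hL : ∀ a : A, (∀ l : L, a • l = 0) → a = 0) (a : G →₀ ℤ)
    (h : ∀ v : Fin 2 → L, (a.sum fun g n => n • matAct (R g) v) = 0) :
    (a.sum fun g n => n • R g) = 0 := by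
  refine Fermat.Agent.S43.Exact.eq_zero_of_matAct hL _ fun v => ?_
  rw [← h v, Finsupp.sum, Finsupp.sum]
  have key : ∀ s : Finset G, matAct (∑ g ∈ s, a g • R g) v = ∑ g ∈ s, a g • matAct (R g) v := by
    intro s
    classical
    induction s using Finset.induction_on with
    | empty => simp [Fermat.Agent.S43.Exact.matAct_zero]
    | insert g s hg ih =>
      rw [Finset.sum_insert hg, Finset.sum_insert hg, Fermat.Agent.S43.Exact.matAct_add, ih]
      congr 1
      have : a g • R g = ((a g : ℤ) : A) • R g := (Int.cast_smul_eq_zsmul A (a g) (R g)).symm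
      rw [this, Fermat.Agent.S43.Exact.matAct_smul, Int.cast_smul_eq_zsmul]
  exact key _

/-- **FLATB in the language of `Exact.gma_main` / `Tan.tan_core`.**  `X` a finite `G_ℚ`-module with a Hopf order of
functions at `p`, whose `ℤ[G_ℚ]`-annihilator kills `L²` (action through `R`). -/
theorem flatAt_of_map [Finite k] (p : ℕ) [Fact p.Prime] (hmul : ∀ g h, R (g * h) = R g * R h)
    (hφ : ∀ σ, (R σ).map φ = liftMat r c σ)
    (hR : ∃ L : IntermediateField ℚ (AlgebraicClosure ℚ), FiniteDimensional ℚ L ∧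
      ∀ σ : G, (∀ x ∈ L, σ x = x) → R σ = 1)
    (hr : Fermat.Agent.S56.B.RSmooth r)
    {L : Type*} [AddCommGroup L] [Module A L] (hL : ∀ a : A, (∀ l : L, a • l = 0) → a = 0)
    {X : Type} [AddCommGroup X] [Finite X] [DistribMulAction G X] (hX : IsFunFlat p X)
    (hann : ∀ a : G →₀ ℤ, (∀ x : X, combAct a x = 0) →
      ∀ v : Fin 2 → L, (a.sum fun g n => n • matAct (R g) v) = 0) :
    FlatAt r c p := by
  refine flatAt_of_ann p r c (isCoc_of_map hmul hφ) (smooth_of_map hφ hR) hr hX fun a ha => ?_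
  have h0 := sum_R_eq_zero hL a (hann a ha)
  have h1 := congrArg (fun M : M2 A => M.map φ) h0
  rw [Matrix.map_zero _ (map_zero φ)] at h1
  rw [← h1, Finsupp.sum, Finsupp.sum]
  have key : ∀ s : Finset G, (∑ g ∈ s, a g • R g).map φ = ∑ g ∈ s, a g • liftMat r c g := by
    intro s
    classical
    induction s using Finset.induction_on with
    | empty => simp
    | insert g s hg ih =>
      rw [Finset.sum_insert hg, Finset.sum_insert hg, Matrix.map_add _ (map_add φ), ih, ← hφ]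
      congr 1
      refine Matrix.ext fun i j => ?_
      show φ (a g • R g i j) = a g • φ (R g i j)
      exact map_zsmul φ _ _
  exact (key _).symm

theorem snd_algHom_algebraMap [Algebra k A] (φ : A →ₐ[k] DualNumber k) (x : k) :
    (φ (algebraMap k A x)).snd = 0 := by
  rw [AlgHom.commutes, TrivSqZeroExt.algebraMap_eq_inl, TrivSqZeroExt.snd_inl]

/-- **Glue `GWS.tw_strict'` ⟹ hypothesis `hcov` of `Tan.tan_core`.**
`S'` = allowed ramification (`Sram ∪ Sstr ∪ image qv`), `I` = an ideal containing the non constant part of the entries of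
`R σ`, `σ ∈ D_q`, `q ∈ Sstr`; the last hypothesis `hT` is literally the covering property in the conclusion of
`GWS.tw_strict'` (`GWS.StrictAt` unfolded). -/
theorem hcov_of [Finite k] [Algebra k A] (p : ℕ) [Fact p.Prime] (hmul : ∀ g h, R (g * h) = R g * R h)
    (hR : ∃ L : IntermediateField ℚ (AlgebraicClosure ℚ), FiniteDimensional ℚ L ∧
      ∀ σ : G, (∀ x ∈ L, σ x = x) → R σ = 1)
    (hr : Fermat.Agent.S56.B.RSmooth r)
    (hdet : ∀ σ, ∃ d : k, (R σ).det = algebraMap k A d)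
    (S' Sram Sstr : Finset ℕ)
    (hunr : ∀ q : ℕ, q.Prime → q ∉ S' → ∀ P : ValuationSubring (AlgebraicClosure ℚ), P.LiesOverPrime q →
      ∀ σ ∈ P.inertiaSubgroupIn ℚ, R σ = 1)
    (hunip : ∀ q ∈ Sram, q.Prime → q ≠ p → ∀ P : ValuationSubring (AlgebraicClosure ℚ),
      P.LiesOverPrime q → ∀ σ ∈ P.inertiaSubgroupIn ℚ, (R σ).trace = 2)
    (I : Ideal A)
    (hstr : ∀ q ∈ Sstr, ∀ P : ValuationSubring (AlgebraicClosure ℚ), P.LiesOverPrime q →
      ∀ σ ∈ P.decompositionSubgroup ℚ, ∀ i j, ∃ x : k, R σ i j - algebraMap k A x ∈ I)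
    {L : Type*} [AddCommGroup L] [Module A L] (hL : ∀ a : A, (∀ l : L, a • l = 0) → a = 0)
    {X : Type} [AddCommGroup X] [Finite X] [DistribMulAction G X] (hX : IsFunFlat p X)
    (hann : ∀ a : G →₀ ℤ, (∀ x : X, combAct a x = 0) →
      ∀ v : Fin 2 → L, (a.sum fun g n => n • matAct (R g) v) = 0)
    (T₁ : Finset (G → M2 k))
    (hT : ∀ c, IsCoc r c → Smooth c → TraceZero c →
      (∀ q : ℕ, q.Prime → q ∉ S' → UnramAt c q) → FlatAt r c p →
      (∀ q ∈ Sram, q.Prime → q ≠ p → UnipAt r c q) →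
      (∀ q ∈ Sstr, ∀ P : ValuationSubring (AlgebraicClosure ℚ), P.LiesOverPrime q →
        ∀ σ ∈ P.decompositionSubgroup ℚ, c σ = 0) → ∃ t ∈ T₁, IsCob r (c - t)) :
    ∀ (φ : A →ₐ[k] DualNumber k) (c : G → M2 k), Function.Surjective φ →
      (∀ z ∈ I, φ z = 0) → (∀ σ, (R σ).map φ = liftMat r c σ) → ∃ t ∈ T₁, IsCob r (c - t) := by
  intro φ c _ hI hφ
  have hφ' : ∀ σ, (R σ).map (φ : A →+* DualNumber k) = liftMat r c σ := hφ
  refine hT c (isCoc_of_map hmul hφ') (smooth_of_map hφ' hR) (traceZero_of_map hφ' fun σ => ?_)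
    (fun q hq hqS => unramAt_of_map hφ' q (hunr q hq hqS))
    (flatAt_of_map p hmul hφ' hR hr hL hX hann)
    (fun q hq hqp hne => unipAt_of_map hφ' q (hunip q hq hqp hne))
    (fun q hq P hP σ hσ => eq_zero_of_map_const hφ' fun i j => ?_)
  · obtain ⟨d, hd⟩ := hdet σ
    rw [hd]
    exact snd_algHom_algebraMap φ d
  · obtain ⟨x, hx⟩ := hstr q hq P hP σ hσ i j
    have h1 := hI _ hx
    rw [map_sub, sub_eq_zero] at h1
    show (φ (R σ i j)).snd = 0
    rw [h1]
    exact snd_algHom_algebraMap φ x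

end Fermat.Agent.S43.FlatB
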