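/-
S43 (route TWX0), block FLATB, part 3: the hypothesis `hflat` of `Selp.hprop_of_gma`, and the concrete flat module.
SORRY-FREE.

* `isFunFlat_KV`, `isFunFlat_KV_one` : `KV Kbar (FN M) (p ^ K)`, `KV Kbar (FN M) p` have a Hopf order of functions at `p ∤ M`
  (S19 + S32, unconditional);
* `ann_baseChange`, `ann_sub`, `ann_equiv` : the `ℤ[G]`-annihilator of `X` kills stable subgroups of `X`, `k ⊗[F] X`, ...;
* `hflat_of_gma` : in the language of `Exact.gma_main`: if the annihilator of a flat `X` kills `W`, all infinitesimal lifts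
  `φ ∘ ρ` are flat at `p`: LITERALLY the hypothesis `hflat` of `Selp.hprop_of_gma`.
-/
import Fermat.Agent.S43.FlatB.Loc
import Fermat.Agent.S32.TowerFlat
import Fermat.Agent.S19

set_option autoImplicit false

open IsLocalRing Matrix TensorProduct

noncomputable section

namespace Fermat.Agent.S43.FlatB

open Fermat.Agent.S53 (G M2 HasMatrix IsMatRep)
open Fermat.Agent.S56.C (ad rm IsCoc IsCob liftMat Smooth FlatAt TraceZero UnramAt UnipAt dn)
open Fermat.Agent.S19 (IsFunFlat)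
open Fermat.Agent.S32 (combAct LevelMod)
open Fermat.Agent.S43.Exact (matAct)
open Fermat.Agent.S24 (Kbar FN)
open AlgebraicCurve ModularCurve
open Fermat.Agent.GAL (KV)

/-- `J₀(M)[p^K]` is flat at `p ∤ M`. -/
theorem isFunFlat_KV (M p : ℕ) [NeZero M] [Fact p.Prime] (hpM : ¬ p ∣ M) (K : ℕ) :
    IsFunFlat p (KV Kbar (FN M) (p ^ K)) :=
  Fermat.Agent.S32.isFunFlat_KV (fun M _ ℓ _ hℓ k => Fermat.Agent.S19.result M ℓ hℓ k) M p hpM K

/-- `J₀(M)[p]` is flat at `p ∤ M`. -/
theorem isFunFlat_KV_one (M p : ℕ) [NeZero M] [Fact p.Prime] (hpM : ¬ p ∣ M) :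
    IsFunFlat p (KV Kbar (FN M) p) := by
  have h := isFunFlat_KV M p hpM 1
  rwa [pow_one] at h

section ann

variable {Γ : Type*}

/-- the annihilator passes to `k ⊗[F] X`. -/
theorem ann_baseChange {F : Type*} (k : Type*) {X : Type*} [CommRing F] [CommRing k] [Algebra F k]
    [AddCommGroup X] [Module F X] (ρ₀ : Γ → X →ₗ[F] X) (a : Γ →₀ ℤ)
    (h : ∀ x : X, (a.sum fun g n => n • ρ₀ g x) = 0) (w : k ⊗[F] X) :
    (a.sum fun g n => n • (ρ₀ g).baseChange k w) = 0 := by
  induction w using TensorProduct.induction_on with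
  | zero => simp [Finsupp.sum]
  | tmul c x =>
    have h1 := congrArg (fun y => c ⊗ₜ[F] y) (h x)
    simp only [Finsupp.sum, TensorProduct.tmul_sum, TensorProduct.tmul_zero] at h1
    rw [Finsupp.sum, ← h1]
    refine Finset.sum_congr rfl fun g _ => ?_
    rw [LinearMap.baseChange_tmul]
    exact (TensorProduct.tmul_smul (a g) c (ρ₀ g x)).symm
  | add u v hu hv =>
    simp only [Finsupp.sum, map_add, smul_add, Finset.sum_add_distrib] at hu hv ⊢
    rw [hu, hv, add_zero]

/-- the annihilator passes to anything which embeds equivariantly. -/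
theorem ann_of_injective {X Y : Type*} [AddCommGroup X] [AddCommGroup Y] (f : Y →+ X)
    (hf : Function.Injective f) (ρX : Γ → X → X) (ρY : Γ → Y → Y) (heq : ∀ g y, f (ρY g y) = ρX g (f y))
    (a : Γ →₀ ℤ) (h : ∀ x : X, (a.sum fun g n => n • ρX g x) = 0) (y : Y) :
    (a.sum fun g n => n • ρY g y) = 0 := by
  apply hf
  rw [map_zero, ← h (f y), Finsupp.sum, Finsupp.sum, map_sum]
  refine Finset.sum_congr rfl fun g _ => ?_
  rw [map_zsmul, heq]

end ann

variable {k : Type} [Field k] {A : Type} [CommRing A] [Algebra k A]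
  {W : Type*} [AddCommGroup W] [Module A W]

/-- **FLATB, final form**: the hypothesis `hflat` of `Selp.hprop_of_gma`, for the output `(ρ, L, Φ)` of `Exact.gma_main`. -/
theorem hflat_of_gma [Finite k] (p : ℕ) [Fact p.Prime] (r : G →* GL (Fin 2) k)
    (hr : Fermat.Agent.S56.B.RSmooth r) (rW : G →* Module.End A W) (ρ : G →* M2 A)
    (L : Submodule A W) (Φ : W ≃ₗ[A] (Fin 2 → L)) (hΦ : ∀ g w, Φ (rW g w) = matAct (ρ g) (Φ w))
    (hL : ∀ a : A, (∀ l : L, a • l = 0) → a = 0)
    (hρ : ∀ g g', rW g = rW g' → ρ g = ρ g')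
    (hsm : ∃ E : IntermediateField ℚ (AlgebraicClosure ℚ), FiniteDimensional ℚ E ∧
      ∀ σ : G, (∀ x ∈ E, σ x = x) → rW σ = 1)
    {X : Type} [AddCommGroup X] [Finite X] [DistribMulAction G X] (hX : IsFunFlat p X)
    (hann : ∀ a : G →₀ ℤ, (∀ x : X, combAct a x = 0) → ∀ w : W, (a.sum fun g n => n • rW g w) = 0) :
    ∀ (φ : A →ₐ[k] DualNumber k) (c : G → M2 k), Function.Surjective φ →
      (∀ σ, (ρ σ).map φ = liftMat r c σ) → FlatAt r c p := by
  intro φ c _ hφ
  obtain ⟨E, hE, hE'⟩ := hsm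
  refine flatAt_of_map (R := fun σ => ρ σ) (φ := (φ : A →+* DualNumber k)) p (fun g h => map_mul ρ g h) hφ
    ⟨E, hE, fun σ hσ => ?_⟩ hr hL hX fun a ha v => ?_
  · rw [← map_one ρ]
    exact hρ σ 1 (by rw [hE' σ hσ, map_one])
  · have h1 := congrArg Φ (hann a ha (Φ.symm v))
    rw [map_zero, Finsupp.sum, map_sum] at h1
    rw [Finsupp.sum, ← h1]
    refine Finset.sum_congr rfl fun g _ => ?_
    rw [map_zsmul, hΦ, LinearEquiv.apply_symm_apply]

end Fermat.Agent.S43.FlatB
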