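/-
S43 (route TWX0), block FLATB, part 4: instantiation for the objects of `Mid/BC`, `Mid/Abs`, `Top0/Iface`.  SORRY-FREE.

`X` a finite `𝔽_p[G_ℚ]`-module with `S19.IsFunFlat p X` (= field `flat` of `Top0.LevelData`), `k ⊗[ZMod p] X` with the action
`Mid.rk`; `D : Mid.Dat k V G ι` (`V` = `k ⊗ X` or a type synonym of it), `(ρ, L, Φ)` the output of `Exact.gma_main` /
`GMA.gma_res` for `D.rA`.
* `hann_rk`, `rk_eq_one` : the two hypotheses of `hflat_of_dat` for `D.r = Mid.rk`;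
* `hflat_of_dat`, `hflat_of_dat'` (`GL₂`-valued `ρ`) : LITERALLY the field `hflat` of `Top0.Datum` / the hypothesis `hflat` of
  `Selp.hprop_of_gma`.
-/
import Fermat.Agent.S43.FlatB.Conc
import Fermat.Agent.S43.Mid.BC
import Fermat.Agent.S43.Mid.Abs

set_option autoImplicit false

open IsLocalRing Matrix TensorProduct

noncomputable section

namespace Fermat.Agent.S43.FlatB

open Fermat.Agent.S53 (G M2)
open Fermat.Agent.S56.C (liftMat FlatAt)
open Fermat.Agent.S19 (IsFunFlat)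
open Fermat.Agent.S32 (combAct)
open Fermat.Agent.S43.Exact (matAct)

/-- the `ℤ[G]`-annihilator of `X` kills `k ⊗ X`. -/
theorem hann_rk (p : ℕ) [Fact p.Prime] (k : Type*) [Field k] [Algebra (ZMod p) k]
    (X : Type) [AddCommGroup X] [Module (ZMod p) X] [DistribMulAction G X]
    (a : G →₀ ℤ) (ha : ∀ x : X, combAct a x = 0) (w : k ⊗[ZMod p] X) :
    (a.sum fun g n => n • Mid.rk p k X G g w) = 0 := by
  induction w using TensorProduct.induction_on with
  | zero => simp [Finsupp.sum]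
  | tmul c x =>
    have h1 := congrArg (fun y => c ⊗ₜ[ZMod p] y) (ha x)
    unfold combAct at h1
    simp only [Finsupp.sum, TensorProduct.tmul_sum, TensorProduct.tmul_zero] at h1
    rw [Finsupp.sum, ← h1]
    refine Finset.sum_congr rfl fun g _ => ?_
    rw [Mid.rk_tmul]
    exact (TensorProduct.tmul_smul (a g) c (g • x)).symm
  | add u v hu hv =>
    simp only [Finsupp.sum, map_add, smul_add, Finset.sum_add_distrib] at hu hv ⊢
    rw [hu, hv, add_zero]

/-- `σ` trivial on `X` is trivial on `k ⊗ X`. -/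
theorem rk_eq_one (p : ℕ) [Fact p.Prime] (k : Type*) [Field k] [Algebra (ZMod p) k]
    (X : Type) [AddCommGroup X] [Module (ZMod p) X] [DistribMulAction G X] (σ : G)
    (h : ∀ x : X, σ • x = x) : Mid.rk p k X G σ = 1 := by
  apply LinearMap.ext
  intro w
  rw [Module.End.one_apply]
  induction w using TensorProduct.induction_on with
  | zero => rw [map_zero]
  | tmul c x => rw [Mid.rk_tmul, h x]
  | add u v hu hv => rw [map_add, hu, hv]

variable {k : Type} [Field k]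

/-- **FLATB for `Mid.Dat`.** -/
theorem hflat_of_dat [Finite k] (p : ℕ) [Fact p.Prime]
    {V : Type} [AddCommGroup V] [Module k V] {ι : Type*} (D : Mid.Dat k V G ι)
    {X : Type} [AddCommGroup X] [Finite X] [DistribMulAction G X] (hX : IsFunFlat p X)
    (hsm : ∃ E : IntermediateField ℚ (AlgebraicClosure ℚ), FiniteDimensional ℚ E ∧
      ∀ σ : G, (∀ z ∈ E, σ z = z) → D.r σ = 1)
    (hann : ∀ a : G →₀ ℤ, (∀ x : X, combAct a x = 0) → ∀ w : V, (a.sum fun g n => n • D.r g w) = 0)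
    (r : G →* GL (Fin 2) k) (hr : Fermat.Agent.S56.B.RSmooth r)
    (ρ : G →* M2 D.A) (L : Submodule D.A V) (Φ : V ≃ₗ[D.A] (Fin 2 → L))
    (hΦ : ∀ g w, Φ (D.rA g w) = matAct (ρ g) (Φ w))
    (hL : ∀ a : D.A, (∀ l : L, a • l = 0) → a = 0)
    (hρ : ∀ g g', D.rA g = D.rA g' → ρ g = ρ g') :
    ∀ (φ : D.A →ₐ[k] DualNumber k) (c : G → M2 k), Function.Surjective φ →
      (∀ σ, (ρ σ).map φ = liftMat r c σ) → FlatAt r c p := by
  refine hflat_of_gma p r hr D.rA ρ L Φ hΦ hL hρ ?_ hX fun a ha w => hann a ha w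
  obtain ⟨E, hE, h⟩ := hsm
  refine ⟨E, hE, fun σ hσ => ?_⟩
  apply LinearMap.ext
  intro w
  rw [Mid.Dat.rA_apply, h σ hσ]
  rfl

/-- the same for the `GL₂(A)`-valued `ρ` of `GMA.gma_res`. -/
theorem hflat_of_dat' [Finite k] (p : ℕ) [Fact p.Prime]
    {V : Type} [AddCommGroup V] [Module k V] {ι : Type*} (D : Mid.Dat k V G ι)
    {X : Type} [AddCommGroup X] [Finite X] [DistribMulAction G X] (hX : IsFunFlat p X)
    (hsm : ∃ E : IntermediateField ℚ (AlgebraicClosure ℚ), FiniteDimensional ℚ E ∧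
      ∀ σ : G, (∀ z ∈ E, σ z = z) → D.r σ = 1)
    (hann : ∀ a : G →₀ ℤ, (∀ x : X, combAct a x = 0) → ∀ w : V, (a.sum fun g n => n • D.r g w) = 0)
    (r : G →* GL (Fin 2) k) (hr : Fermat.Agent.S56.B.RSmooth r)
    (ρ : G →* GL (Fin 2) D.A) (L : Submodule D.A V) (Φ : V ≃ₗ[D.A] (Fin 2 → L))
    (hΦ : ∀ g w, Φ (D.rA g w) = matAct (ρ g).1 (Φ w))
    (hL : ∀ a : D.A, (∀ l : L, a • l = 0) → a = 0)
    (hρ : ∀ g g', D.rA g = D.rA g' → ρ g = ρ g') :
    ∀ (φ : D.A →ₐ[k] DualNumber k) (c : G → M2 k), Function.Surjective φ →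
      (∀ σ, (ρ σ).1.map φ = liftMat r c σ) → FlatAt r c p :=
  hflat_of_dat p D hX hsm hann r hr ((Units.coeHom (M2 D.A)).comp ρ) L Φ hΦ hL
    (fun g g' h => congrArg Units.val (hρ g g' h))

end Fermat.Agent.S43.FlatB
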